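/-
helper34: P-CFT / FR-CONE.  The long exact sequence of the shifted cone
`Hⁿ(K) → Hⁿ(L) → Hⁿ⁺¹(cone) → Hⁿ⁺¹(K) → Hⁿ⁺¹(L)` in cocycle form
(`Fermat.Agent.H13.Cft.ConeLesStatement`).
-/
import Fermat.Agent.H13.Cft.Tools
import Fermat.Agent.H19.Cft.HomologyApi

set_option autoImplicit false

universe u

open CategoryTheory

namespace Fermat.Agent.H34

open Fermat.Agent.H13.Cft Fermat.Agent.H19

noncomputable section

section cone

variable {k : Type u} [CommRing k] {K L : CochainComplex (ModuleCat.{u} k) ℕ} (φ : K ⟶ L)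

/-! ### The differential of the cone, elementwise -/

theorem coneShift_d_zero (a : K.X 0) :
    ((coneShift φ).d 0 1).hom a
      = (((K.d 0 1).hom a, (φ.f 0).hom a) : K.X 1 × L.X 0) := by
  have h : (coneShift φ).d 0 1 = coneD φ 0 := CochainComplex.of_d (coneX K L) (coneD φ) 0
  rw [h]
  rfl

theorem coneShift_d_succ (n : ℕ) (a : K.X (n + 1)) (b : L.X n) :
    ((coneShift φ).d (n + 1) (n + 2)).hom ((a, b) : K.X (n + 1) × L.X n)
      = (((K.d (n + 1) (n + 2)).hom a, (φ.f (n + 1)).hom a - (L.d n (n + 1)).hom b) :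
          K.X (n + 2) × L.X (n + 1)) := by
  have h : (coneShift φ).d (n + 1) (n + 2) = coneD φ (n + 1) :=
    CochainComplex.of_d (coneX K L) (coneD φ) (n + 1)
  rw [h]
  rfl

theorem cone_phi_d (n : ℕ) (a : K.X n) :
    (φ.f (n + 1)).hom ((K.d n (n + 1)).hom a) = (L.d n (n + 1)).hom ((φ.f n).hom a) :=
  (hapi_comp_apply _ _ _ (φ.comm n (n + 1)) a).symm

/-! ### The projection `π : cone ⟶ K` -/

/-- The projection `coneShift φ ⟶ K`. -/
def conePi : coneShift φ ⟶ K where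
  f := coneFstF φ
  comm' := by
    intro i j hij
    obtain rfl : i + 1 = j := hij
    cases i with
    | zero =>
      ext a
      have h1 : (coneFstF φ 1).hom (((coneShift φ).d 0 1).hom a)
          = (coneFstF φ 1).hom (((K.d 0 1).hom a, (φ.f 0).hom a) : K.X 1 × L.X 0) :=
        congrArg _ (coneShift_d_zero φ a)
      exact h1.symm
    | succ n =>
      ext x
      have h1 : (coneFstF φ (n + 2)).hom (((coneShift φ).d (n + 1) (n + 2)).hom x)
          = (coneFstF φ (n + 2)).hom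
            ((((K.d (n + 1) (n + 2)).hom x.1,
              (φ.f (n + 1)).hom x.1 - (L.d n (n + 1)).hom x.2) : K.X (n + 2) × L.X (n + 1))) :=
        congrArg _ (coneShift_d_succ φ n x.1 x.2)
      exact h1.symm

@[simp] theorem conePi_f (n : ℕ) : (conePi φ).f n = coneFstF φ n := rfl

theorem conePi_zero_apply (a : K.X 0) : ((conePi φ).f 0).hom a = a := rfl

theorem conePi_succ_apply (n : ℕ) (a : K.X (n + 1)) (b : L.X n) :
    ((conePi φ).f (n + 1)).hom ((a, b) : K.X (n + 1) × L.X n) = a := rfl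

/-! ### Cocycles of the cone -/

theorem cone_cocycle_zero_iff (a : K.X 0) :
    ((coneShift φ).d 0 1).hom a = 0 ↔ (K.d 0 1).hom a = 0 ∧ (φ.f 0).hom a = 0 := by
  rw [coneShift_d_zero]
  exact Prod.mk_eq_zero

theorem cone_cocycle_succ_iff (n : ℕ) (a : K.X (n + 1)) (b : L.X n) :
    ((coneShift φ).d (n + 1) (n + 2)).hom ((a, b) : K.X (n + 1) × L.X n) = 0 ↔
      (K.d (n + 1) (n + 2)).hom a = 0 ∧ (φ.f (n + 1)).hom a = (L.d n (n + 1)).hom b := by
  rw [coneShift_d_succ]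
  constructor
  · intro h
    have h' := Prod.mk_eq_zero.mp h
    exact ⟨h'.1, sub_eq_zero.mp h'.2⟩
  · rintro ⟨h1, h2⟩
    exact Prod.mk_eq_zero.mpr ⟨h1, sub_eq_zero.mpr h2⟩

/-- `(0, b)` is a cocycle of the cone when `b` is a cocycle of `L`. -/
theorem cone_inr_cocycle (n : ℕ) (b : L.X n) (hb : (L.d n (n + 1)).hom b = 0) :
    ((coneShift φ).d (n + 1) (n + 2)).hom ((0, b) : K.X (n + 1) × L.X n) = 0 := by
  rw [cone_cocycle_succ_iff, map_zero, map_zero, hb]
  exact ⟨rfl, rfl⟩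

/-! ### The connecting map -/

/-- `b ↦ (0, b)`. -/
def coneInr (n : ℕ) : L.X n →ₗ[k] (coneShift φ).X (n + 1) :=
  LinearMap.inr k (K.X (n + 1)) (L.X n)

theorem coneInr_apply (n : ℕ) (b : L.X n) :
    coneInr φ n b = ((0, b) : K.X (n + 1) × L.X n) := rfl

/-- The connecting map on cocycles, `b ↦ [(0, b)]`. -/
def coneBdCocycles (n : ℕ) :
    LinearMap.ker (L.d n (n + 1)).hom →ₗ[k] (coneShift φ).homology (n + 1) :=
  (cocyclesToH (coneShift φ) (n + 1)) ∘ₗ
    (LinearMap.codRestrict (LinearMap.ker ((coneShift φ).d (n + 1) (n + 2)).hom)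
      ((coneInr φ n) ∘ₗ (LinearMap.ker (L.d n (n + 1)).hom).subtype)
      (fun b => LinearMap.mem_ker.2 (cone_inr_cocycle φ n b.1 (LinearMap.mem_ker.1 b.2))))

theorem coneBdCocycles_apply (n : ℕ) (b : LinearMap.ker (L.d n (n + 1)).hom) :
    coneBdCocycles φ n b = hMk (coneShift φ) (n + 1) ((0, b.1) : K.X (n + 1) × L.X n)
      (cone_inr_cocycle φ n b.1 (LinearMap.mem_ker.1 b.2)) := rfl

theorem ker_cocyclesToH_le_ker_coneBd (n : ℕ) :
    LinearMap.ker (cocyclesToH L n) ≤ LinearMap.ker (coneBdCocycles φ n) := by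
  intro x hx
  rw [LinearMap.mem_ker] at hx ⊢
  cases n with
  | zero =>
    have h0 : x = 0 := cocyclesToH_zero_injective L (by rw [hx, map_zero])
    rw [h0, map_zero]
  | succ m =>
    obtain ⟨y, hy⟩ := (cocyclesToH_succ_eq_zero_iff L m x).mp hx
    rw [coneBdCocycles_apply]
    apply (hapi_hMk_succ_eq_zero_iff (coneShift φ) (m + 1) _ _).mpr
    refine ⟨((0, -y) : K.X (m + 1) × L.X m), ?_⟩
    rw [coneShift_d_succ, map_zero, map_zero, map_neg, hy, zero_sub, neg_neg]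

/-- The connecting map `Hⁿ(L) → Hⁿ⁺¹(cone)`, as a linear map. -/
def coneBdLin (n : ℕ) : L.homology n →ₗ[k] (coneShift φ).homology (n + 1) :=
  (Submodule.liftQ _ (coneBdCocycles φ n) (ker_cocyclesToH_le_ker_coneBd φ n)) ∘ₗ
    ((cocyclesToH L n).quotKerEquivOfSurjective (cocyclesToH_surjective L n)).symm.toLinearMap

theorem coneBdLin_hMk (n : ℕ) (b : L.X n) (hb : (L.d n (n + 1)).hom b = 0)
    (h0 : ((coneShift φ).d (n + 1) (n + 2)).hom ((0, b) : K.X (n + 1) × L.X n) = 0) :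
    coneBdLin φ n (hMk L n b hb)
      = hMk (coneShift φ) (n + 1) ((0, b) : K.X (n + 1) × L.X n) h0 := by
  have h1 : ((cocyclesToH L n).quotKerEquivOfSurjective (cocyclesToH_surjective L n)).symm
      (hMk L n b hb) = Submodule.Quotient.mk ⟨b, LinearMap.mem_ker.2 hb⟩ := by
    rw [LinearEquiv.symm_apply_eq]
    rfl
  have h2 : coneBdLin φ n (hMk L n b hb)
      = Submodule.liftQ _ (coneBdCocycles φ n) (ker_cocyclesToH_le_ker_coneBd φ n)
        (((cocyclesToH L n).quotKerEquivOfSurjective (cocyclesToH_surjective L n)).symm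
          (hMk L n b hb)) := rfl
  rw [h2, h1]
  rfl

/-- The connecting morphism `Hⁿ(L) ⟶ Hⁿ⁺¹(cone)`. -/
def coneBd (n : ℕ) : L.homology n ⟶ (coneShift φ).homology (n + 1) :=
  ModuleCat.ofHom (coneBdLin φ n)

theorem coneBd_hMk (n : ℕ) (b : L.X n) (hb : (L.d n (n + 1)).hom b = 0)
    (h0 : ((coneShift φ).d (n + 1) (n + 2)).hom ((0, b) : K.X (n + 1) × L.X n) = 0) :
    (coneBd φ n).hom (hMk L n b hb)
      = hMk (coneShift φ) (n + 1) ((0, b) : K.X (n + 1) × L.X n) h0 :=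
  coneBdLin_hMk φ n b hb h0

/-! ### Exactness -/

theorem homologyMap_conePi_hMk_zero (a : K.X 0) (hc : ((coneShift φ).d 0 1).hom a = 0)
    (ha : (K.d 0 1).hom a = 0) :
    (HomologicalComplex.homologyMap (conePi φ) 0).hom (hMk (coneShift φ) 0 a hc)
      = hMk K 0 a ha :=
  (hapi_homologyMap_hMk' (coneShift φ) 0 K (conePi φ) a hc).trans (hapi_hMk_congr K 0 rfl _ _)

theorem homologyMap_conePi_hMk_succ (n : ℕ) (a : K.X (n + 1)) (b : L.X n)
    (hc : ((coneShift φ).d (n + 1) (n + 2)).hom ((a, b) : K.X (n + 1) × L.X n) = 0)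
    (ha : (K.d (n + 1) (n + 2)).hom a = 0) :
    (HomologicalComplex.homologyMap (conePi φ) (n + 1)).hom
      (hMk (coneShift φ) (n + 1) ((a, b) : K.X (n + 1) × L.X n) hc) = hMk K (n + 1) a ha :=
  (hapi_homologyMap_hMk' (coneShift φ) (n + 1) K (conePi φ) _ hc).trans
    (hapi_hMk_congr K (n + 1) rfl _ _)

theorem cone_hMk_surjective_zero (c : (coneShift φ).homology 0) :
    ∃ (a : K.X 0) (hc : ((coneShift φ).d 0 1).hom a = 0), hMk (coneShift φ) 0 a hc = c :=
  hapi_hMk_surjective (coneShift φ) 0 c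

theorem cone_hMk_surjective_succ (n : ℕ) (c : (coneShift φ).homology (n + 1)) :
    ∃ (a : K.X (n + 1)) (b : L.X n)
      (hc : ((coneShift φ).d (n + 1) (n + 2)).hom ((a, b) : K.X (n + 1) × L.X n) = 0),
      hMk (coneShift φ) (n + 1) ((a, b) : K.X (n + 1) × L.X n) hc = c := by
  obtain ⟨x, hx, h⟩ := hapi_hMk_surjective (coneShift φ) (n + 1) c
  exact ⟨x.1, x.2, hx, h⟩

theorem cone_hMk_eq_zero_iff_zero (x : K.X 1) (b : L.X 0)
    (hc : ((coneShift φ).d 1 2).hom ((x, b) : K.X 1 × L.X 0) = 0) :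
    hMk (coneShift φ) 1 ((x, b) : K.X 1 × L.X 0) hc = 0 ↔
      ∃ a : K.X 0, (K.d 0 1).hom a = x ∧ (φ.f 0).hom a = b := by
  rw [show hMk (coneShift φ) 1 ((x, b) : K.X 1 × L.X 0) hc = 0 ↔
    ∃ y : (coneShift φ).X 0, ((coneShift φ).d 0 1).hom y = ((x, b) : K.X 1 × L.X 0) from
    hapi_hMk_succ_eq_zero_iff (coneShift φ) 0 _ hc]
  constructor
  · rintro ⟨a, ha⟩
    have ha' : (((K.d 0 1).hom a, (φ.f 0).hom a) : K.X 1 × L.X 0) = (x, b) :=
      (coneShift_d_zero φ a).symm.trans ha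
    exact ⟨a, congrArg Prod.fst ha', congrArg Prod.snd ha'⟩
  · rintro ⟨a, h1, h2⟩
    refine ⟨a, ?_⟩
    rw [← h1, ← h2]
    exact coneShift_d_zero φ a

theorem cone_hMk_eq_zero_iff_succ (m : ℕ) (x : K.X (m + 2)) (b : L.X (m + 1))
    (hc : ((coneShift φ).d (m + 2) (m + 3)).hom ((x, b) : K.X (m + 2) × L.X (m + 1)) = 0) :
    hMk (coneShift φ) (m + 2) ((x, b) : K.X (m + 2) × L.X (m + 1)) hc = 0 ↔
      ∃ (a : K.X (m + 1)) (b' : L.X m), (K.d (m + 1) (m + 2)).hom a = x ∧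
        (φ.f (m + 1)).hom a - (L.d m (m + 1)).hom b' = b := by
  rw [show hMk (coneShift φ) (m + 2) ((x, b) : K.X (m + 2) × L.X (m + 1)) hc = 0 ↔
    ∃ y : (coneShift φ).X (m + 1), ((coneShift φ).d (m + 1) (m + 2)).hom y
      = ((x, b) : K.X (m + 2) × L.X (m + 1)) from
    hapi_hMk_succ_eq_zero_iff (coneShift φ) (m + 1) _ hc]
  constructor
  · rintro ⟨y, hy⟩
    have hy' : ((((K.d (m + 1) (m + 2)).hom y.1,
        (φ.f (m + 1)).hom y.1 - (L.d m (m + 1)).hom y.2) : K.X (m + 2) × L.X (m + 1)))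
        = (x, b) := (coneShift_d_succ φ m y.1 y.2).symm.trans hy
    exact ⟨y.1, y.2, congrArg Prod.fst hy', congrArg Prod.snd hy'⟩
  · rintro ⟨a, b', h1, h2⟩
    refine ⟨((a, b') : K.X (m + 1) × L.X m), ?_⟩
    rw [← h1, ← h2]
    exact coneShift_d_succ φ m a b'

/-- Exactness at `Hⁿ(L)`. -/
theorem cone_exact_phi_bd (n : ℕ) :
    Function.Exact (HomologicalComplex.homologyMap φ n).hom (coneBd φ n).hom := by
  intro z
  obtain ⟨b, hb, rfl⟩ := hapi_hMk_surjective L n z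
  rw [coneBd_hMk φ n b hb (cone_inr_cocycle φ n b hb)]
  cases n with
  | zero =>
    rw [cone_hMk_eq_zero_iff_zero]
    constructor
    · rintro ⟨a, h1, h2⟩
      refine ⟨hMk K 0 a h1, ?_⟩
      exact (hapi_homologyMap_hMk' K 0 L φ a h1).trans (hapi_hMk_congr L 0 h2 _ _)
    · rintro ⟨w, hw⟩
      obtain ⟨a, ha, rfl⟩ := hapi_hMk_surjective K 0 w
      have hw' := (hapi_homologyMap_hMk' K 0 L φ a ha).symm.trans hw
      exact ⟨a, ha, (hapi_hMk_zero_eq_iff L _ _ _ _).mp hw'⟩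
  | succ m =>
    rw [cone_hMk_eq_zero_iff_succ]
    constructor
    · rintro ⟨a, b', h1, h2⟩
      have h1' : (K.d (m + 1) (m + 2)).hom a = 0 := h1
      refine ⟨hMk K (m + 1) a h1', ?_⟩
      refine (hapi_homologyMap_hMk' K (m + 1) L φ a h1').trans ?_
      apply (hapi_hMk_succ_eq_iff L m _ _ _ _).mpr
      refine ⟨b', ?_⟩
      rw [← h2]
      abel
    · rintro ⟨w, hw⟩
      obtain ⟨a, ha, rfl⟩ := hapi_hMk_surjective K (m + 1) w
      have hw' := (hapi_homologyMap_hMk' K (m + 1) L φ a ha).symm.trans hw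
      obtain ⟨b', hb'⟩ := (hapi_hMk_succ_eq_iff L m _ _ _ _).mp hw'
      refine ⟨a, b', ha, ?_⟩
      rw [hb']
      abel

/-- Exactness at `Hⁿ⁺¹(cone)`. -/
theorem cone_exact_bd_pi (n : ℕ) :
    Function.Exact (coneBd φ n).hom (HomologicalComplex.homologyMap (conePi φ) (n + 1)).hom := by
  intro c
  obtain ⟨a, b, hx, rfl⟩ := cone_hMk_surjective_succ φ n c
  have hx' := (cone_cocycle_succ_iff φ n a b).mp hx
  rw [homologyMap_conePi_hMk_succ φ n a b hx hx'.1]
  constructor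
  · intro h
    obtain ⟨a', ha'⟩ := (hapi_hMk_succ_eq_zero_iff K n _ _).mp h
    have hb₀ : (L.d n (n + 1)).hom (b - (φ.f n).hom a') = 0 := by
      rw [map_sub, ← cone_phi_d, ha', hx'.2, sub_self]
    refine ⟨hMk L n (b - (φ.f n).hom a') hb₀, ?_⟩
    refine (coneBd_hMk φ n _ hb₀ (cone_inr_cocycle φ n _ hb₀)).trans ?_
    apply (hapi_hMk_succ_eq_iff (coneShift φ) n _ _ _ _).mpr
    cases n with
    | zero =>
      refine ⟨(-a' : K.X 0), ?_⟩
      refine (coneShift_d_zero φ (-a')).trans ?_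
      rw [map_neg, map_neg, ha']
      show ((-a, -(φ.f 0).hom a') : K.X 1 × L.X 0)
        = ((0, b - (φ.f 0).hom a') : K.X 1 × L.X 0) - ((a, b) : K.X 1 × L.X 0)
      rw [Prod.mk_sub_mk]
      congr 1
      · abel
      · abel
    | succ m =>
      refine ⟨((-a', 0) : K.X (m + 1) × L.X m), ?_⟩
      refine (coneShift_d_succ φ m (-a') 0).trans ?_
      rw [map_neg, map_neg, map_zero, sub_zero, ha']
      show ((-a, -(φ.f (m + 1)).hom a') : K.X (m + 2) × L.X (m + 1))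
        = ((0, b - (φ.f (m + 1)).hom a') : K.X (m + 2) × L.X (m + 1))
          - ((a, b) : K.X (m + 2) × L.X (m + 1))
      rw [Prod.mk_sub_mk]
      congr 1
      · abel
      · abel
  · rintro ⟨z, hz⟩
    obtain ⟨b₀, hb₀, rfl⟩ := hapi_hMk_surjective L n z
    have hz' := (coneBd_hMk φ n b₀ hb₀ (cone_inr_cocycle φ n b₀ hb₀)).symm.trans hz
    have h1 := congrArg (HomologicalComplex.homologyMap (conePi φ) (n + 1)).hom hz'
    have h0 : (K.d (n + 1) (n + 2)).hom (0 : K.X (n + 1)) = 0 := map_zero _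
    have h2 := (homologyMap_conePi_hMk_succ φ n 0 b₀ (cone_inr_cocycle φ n b₀ hb₀) h0).symm.trans
      (h1.trans (homologyMap_conePi_hMk_succ φ n a b hx hx'.1))
    rw [← h2]
    exact hapi_hMk_zero K (n + 1) _

/-- Exactness at `Hⁿ(K)`. -/
theorem cone_exact_pi_phi (n : ℕ) :
    Function.Exact (HomologicalComplex.homologyMap (conePi φ) n).hom
      (HomologicalComplex.homologyMap φ n).hom := by
  intro w
  obtain ⟨a, ha, rfl⟩ := hapi_hMk_surjective K n w
  rw [hapi_homologyMap_hMk']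
  cases n with
  | zero =>
    constructor
    · intro h
      have h1 : (φ.f 0).hom a = 0 := (hapi_hMk_zero_eq_zero_iff L _ _).mp h
      have hc : ((coneShift φ).d 0 1).hom a = 0 := (cone_cocycle_zero_iff φ a).mpr ⟨ha, h1⟩
      exact ⟨hMk (coneShift φ) 0 a hc, homologyMap_conePi_hMk_zero φ a hc ha⟩
    · rintro ⟨c, hc⟩
      obtain ⟨a₀, ha₀, rfl⟩ := cone_hMk_surjective_zero φ c
      have ha₀' := (cone_cocycle_zero_iff φ a₀).mp ha₀
      have hc' := (homologyMap_conePi_hMk_zero φ a₀ ha₀ ha₀'.1).symm.trans hc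
      have h2 : a₀ = a := (hapi_hMk_zero_eq_iff K _ _ _ _).mp hc'
      apply (hapi_hMk_zero_eq_zero_iff L _ _).mpr
      rw [← h2]
      exact ha₀'.2
  | succ m =>
    constructor
    · intro h
      obtain ⟨b, hb⟩ := (hapi_hMk_succ_eq_zero_iff L m _ _).mp h
      have hc : ((coneShift φ).d (m + 1) (m + 2)).hom ((a, b) : K.X (m + 1) × L.X m) = 0 :=
        (cone_cocycle_succ_iff φ m a b).mpr ⟨ha, hb.symm⟩
      exact ⟨hMk (coneShift φ) (m + 1) ((a, b) : K.X (m + 1) × L.X m) hc,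
        homologyMap_conePi_hMk_succ φ m a b hc ha⟩
    · rintro ⟨c, hc⟩
      obtain ⟨a₀, b₀, hx, rfl⟩ := cone_hMk_surjective_succ φ m c
      have hx' := (cone_cocycle_succ_iff φ m a₀ b₀).mp hx
      have hc' := (homologyMap_conePi_hMk_succ φ m a₀ b₀ hx hx'.1).symm.trans hc
      obtain ⟨a', ha'⟩ := (hapi_hMk_succ_eq_iff K m _ _ _ _).mp hc'
      apply (hapi_hMk_succ_eq_zero_iff L m _ _).mpr
      refine ⟨b₀ - (φ.f m).hom a', ?_⟩
      rw [map_sub, ← cone_phi_d, ha', ← hx'.2, map_sub]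
      abel

/-- **FR-CONE**: the long exact sequence of the shifted cone. -/
theorem coneLes : ConeLesStatement.{u} := by
  intro k _ K L φ
  exact ⟨conePi φ, coneBd φ, fun _ => rfl, coneBd_hMk φ, cone_exact_phi_bd φ,
    cone_exact_bd_pi φ, cone_exact_pi_phi φ⟩

end cone

end

end Fermat.Agent.H34
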