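/-
helper34: P-CFT row 956 (TR-EXT), `TraceOfRecipStatement`.

Pure linear algebra over a field: from linear forms `t_v` on `C²(Γ_v, μ)` which vanish on
coboundaries and satisfy `∑_v t_v (res_v z) = 0` for the global level `2`-cocycles `z`, a trace
`τ` on `C_c³(μ)` with `τ (0, a at v) = t_v a`.

`s z := ∑_v t_v (res_v z)` vanishes on `ker (d : C² → C³)`, hence `-s = φ ∘ d` for a linear form
`φ` on `C³(G, μ)`; put `τ (y, a) := φ y + ∑_v t_v (a v)`.  As `d (z, b) = (d z, res z - d b)`,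
`τ (d (z, b)) = φ (d z) + s z - ∑_v t_v (d b_v) = 0`.
-/
import Fermat.Agent.H13.Cft.ULang
import Fermat.Agent.H77.FrCore.Unfold

set_option autoImplicit false

universe u

open CategoryTheory ExtCitation

namespace Fermat.Agent.H34.Cft

open Fermat.Agent.H13.Cft Fermat.Agent.H77

noncomputable section

section linear

variable {k V W : Type*} [Field k] [AddCommGroup V] [Module k V] [AddCommGroup W] [Module k W]

/-- Over a field, a linear form vanishing on `ker T` factors through `T`. -/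
theorem trx_exists_factor (T : V →ₗ[k] W) (φ : Module.Dual k V)
    (h : ∀ v, T v = 0 → φ v = 0) : ∃ ψ : Module.Dual k W, ψ ∘ₗ T = φ := by
  have hmem : φ ∈ LinearMap.range T.dualMap := by
    rw [LinearMap.range_dualMap_eq_dualAnnihilator_ker, Submodule.mem_dualAnnihilator]
    intro v hv
    exact h v (LinearMap.mem_ker.1 hv)
  obtain ⟨ψ, hψ⟩ := hmem
  exact ⟨ψ, hψ⟩

end linear

section General

variable {k G : Type u} [Field k] [Group G] (𝔄 : ArithDatum k G)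

/-- The sum of the local forms, on `∏ v, C²(Γ_v, μ)`. -/
def trxSum
    (t : ∀ v : 𝔄.ι, lvlCochains (𝔄.lvlv v) (Rep.res (𝔄.loc v) (muRep 𝔄.χ)) 2 →ₗ[k] k) :
    (∀ v, lvlCochains (𝔄.lvlv v) (Rep.res (𝔄.loc v) (muRep 𝔄.χ)) 2) →ₗ[k] k :=
  ∑ v, t v ∘ₗ LinearMap.proj v

theorem trxSum_apply
    (t : ∀ v : 𝔄.ι, lvlCochains (𝔄.lvlv v) (Rep.res (𝔄.loc v) (muRep 𝔄.χ)) 2 →ₗ[k] k)
    (a : ∀ v, lvlCochains (𝔄.lvlv v) (Rep.res (𝔄.loc v) (muRep 𝔄.χ)) 2) :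
    trxSum 𝔄 t a = ∑ v, t v (a v) := by
  unfold trxSum
  rw [LinearMap.sum_apply]
  rfl

/-- The local trace induced by a global trace, evaluated. -/
theorem trx_localAt_apply (T : Trace 𝔄) (v : 𝔄.ι) [DecidableEq 𝔄.ι]
    (c : lvlCochains (𝔄.lvlv v) (Rep.res (𝔄.loc v) (muRep 𝔄.χ)) 2) :
    T.localAt v c = T.τ (0, Pi.single v c) := by
  unfold Trace.localAt
  simp only [LinearMap.comp_apply, LinearMap.inr_apply, LinearMap.single_apply]
  congr!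

/-- **The trace from reciprocity** (general arithmetic datum over a field). -/
theorem exists_trace_of_recip
    (t : ∀ v : 𝔄.ι, lvlCochains (𝔄.lvlv v) (Rep.res (𝔄.loc v) (muRep 𝔄.χ)) 2 →ₗ[k] k)
    (ht_d : ∀ v (b : lvlCochains (𝔄.lvlv v) (Rep.res (𝔄.loc v) (muRep 𝔄.χ)) 1),
      t v (lvlD (𝔄.lvlv v) (Rep.res (𝔄.loc v) (muRep 𝔄.χ)) 1 b) = 0)
    (ht_sum : ∀ z : lvlCochains 𝔄.lvl (muRep 𝔄.χ) 2, lvlD 𝔄.lvl (muRep 𝔄.χ) 2 z = 0 →
      ∑ v, t v (locRes 𝔄 (muRep 𝔄.χ) v 2 z) = 0) :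
    ∃ T : Trace 𝔄, ∀ (v : 𝔄.ι)
      (a : lvlCochains (𝔄.lvlv v) (Rep.res (𝔄.loc v) (muRep 𝔄.χ)) 2), T.localAt v a = t v a := by
  classical
  -- the form `s z = ∑ t_v (res_v z)` on `C²(G, μ)`
  let s : Module.Dual k (lvlCochains 𝔄.lvl (muRep 𝔄.χ) 2) :=
    ∑ v, t v ∘ₗ locRes 𝔄 (muRep 𝔄.χ) v 2
  have hs : ∀ z, s z = ∑ v, t v (locRes 𝔄 (muRep 𝔄.χ) v 2 z) := by
    intro z
    show (∑ v, t v ∘ₗ locRes 𝔄 (muRep 𝔄.χ) v 2) z = _
    rw [LinearMap.sum_apply]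
    rfl
  obtain ⟨φ, hφ⟩ := trx_exists_factor (lvlD 𝔄.lvl (muRep 𝔄.χ) 2) (-s) (by
    intro z hz
    rw [LinearMap.neg_apply, hs, ht_sum z hz, neg_zero])
  have hφ' : ∀ z, φ (lvlD 𝔄.lvl (muRep 𝔄.χ) 2 z)
      = -∑ v, t v (locRes 𝔄 (muRep 𝔄.χ) v 2 z) := by
    intro z
    have h := LinearMap.congr_fun hφ z
    rw [LinearMap.comp_apply, LinearMap.neg_apply, hs] at h
    exact h
  let τ : CcProd 𝔄 (muRep 𝔄.χ) 2 →ₗ[k] k :=
    φ ∘ₗ LinearMap.fst k _ _ + trxSum 𝔄 t ∘ₗ LinearMap.snd k _ _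
  have hτ : ∀ x : CcProd 𝔄 (muRep 𝔄.χ) 2, τ x = φ x.1 + ∑ v, t v (x.2 v) := by
    intro x
    show φ x.1 + trxSum 𝔄 t x.2 = _
    rw [trxSum_apply]
  refine ⟨⟨τ, ?_⟩, ?_⟩
  · intro x
    rw [frc_ccOut_eq, hτ]
    simp only [frcFst_d, frcSnd_d, map_sub, ht_d, sub_zero]
    rw [hφ', neg_add_cancel]
  · intro v a
    rw [trx_localAt_apply 𝔄 _ v a]
    show τ (0, Pi.single v a) = t v a
    rw [hτ]
    show φ 0 + ∑ w, t w ((Pi.single v a :
      ∀ w, lvlCochains (𝔄.lvlv w) (Rep.res (𝔄.loc w) (muRep 𝔄.χ)) 2) w) = t v a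
    rw [map_zero, zero_add, Finset.sum_eq_single v]
    · rw [Pi.single_eq_same]
    · intro w _ hw
      rw [Pi.single_eq_of_ne hw, map_zero]
    · intro h
      exact absurd (Finset.mem_univ v) h

end General

/-- **[TR-EXT]** the trace from reciprocity. -/
theorem traceOfRecip : TraceOfRecipStatement := by
  intro hR p _ hp2 S hpS hχ
  obtain ⟨t, ht_d, ht_ne, ht_sum⟩ := hR p hp2 S hpS hχ
  obtain ⟨T, hT⟩ := exists_trace_of_recip (arithDatumQ p S hχ) t ht_d ht_sum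
  refine ⟨T, fun v => ?_⟩
  obtain ⟨a, ha, hne⟩ := ht_ne v
  exact ⟨a, ha, by rw [hT]; exact hne⟩

end

end Fermat.Agent.H34.Cft
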