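/-
helper34: P-CFT / FR-CONE, second part.  Naturality of the projection and of the connecting
map of the shifted cone with respect to `coneShiftMap` (helper53), and: a short exact sequence
of squares gives a short exact sequence of shifted cones.
-/
import Fermat.Agent.H34.Cft.ConeLes
import Fermat.Agent.H53.Cft.FrNatDefs

set_option autoImplicit false

universe u

open CategoryTheory

namespace Fermat.Agent.H34

open Fermat.Agent.H13.Cft Fermat.Agent.H19 Fermat.Agent.H53

noncomputable section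

section coneNat

variable {k : Type u} [CommRing k] {K L K' L' : CochainComplex (ModuleCat.{u} k) ℕ}
  {φ : K ⟶ L} {φ' : K' ⟶ L'} (α : K ⟶ K') (β : L ⟶ L') (h : φ ≫ β = α ≫ φ')

/-- Naturality of the projection `cone ⟶ K`. -/
theorem coneShiftMap_conePi : coneShiftMap α β h ≫ conePi φ' = conePi φ ≫ α := by
  ext n : 1
  cases n with
  | zero => rfl
  | succ n =>
    ext x : 2
    rfl

/-- Naturality of the projection on cohomology. -/
theorem homologyMap_coneShiftMap_conePi (n : ℕ) :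
    HomologicalComplex.homologyMap (coneShiftMap α β h) n ≫
        HomologicalComplex.homologyMap (conePi φ') n
      = HomologicalComplex.homologyMap (conePi φ) n ≫ HomologicalComplex.homologyMap α n := by
  rw [← HomologicalComplex.homologyMap_comp, ← HomologicalComplex.homologyMap_comp,
    coneShiftMap_conePi]

/-- Naturality of `φ` on cohomology. -/
theorem coneNat_homologyMap_square {φ : K ⟶ L} {φ' : K' ⟶ L'} (α : K ⟶ K') (β : L ⟶ L')
    (h : φ ≫ β = α ≫ φ') (n : ℕ) :
    HomologicalComplex.homologyMap φ n ≫ HomologicalComplex.homologyMap β n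
      = HomologicalComplex.homologyMap α n ≫ HomologicalComplex.homologyMap φ' n := by
  rw [← HomologicalComplex.homologyMap_comp, ← HomologicalComplex.homologyMap_comp, h]

theorem coneNat_d_map (n : ℕ) (b : L.X n) (hb : (L.d n (n + 1)).hom b = 0) :
    (L'.d n (n + 1)).hom ((β.f n).hom b) = 0 := by
  have h1 : (L'.d n (n + 1)).hom ((β.f n).hom b) = (β.f (n + 1)).hom ((L.d n (n + 1)).hom b) :=
    (cone_phi_d β n b).symm
  rw [h1, hb, map_zero]

/-- Naturality of the connecting map, elementwise. -/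
theorem coneBd_naturality_apply (n : ℕ) (z : L.homology n) :
    (coneBd φ' n).hom ((HomologicalComplex.homologyMap β n).hom z)
      = (HomologicalComplex.homologyMap (coneShiftMap α β h) (n + 1)).hom
          ((coneBd φ n).hom z) := by
  obtain ⟨b, hb, rfl⟩ := hapi_hMk_surjective L n z
  have hb' : (L'.d n (n + 1)).hom ((β.f n).hom b) = 0 := coneNat_d_map β n b hb
  rw [coneBd_hMk φ n b hb (cone_inr_cocycle φ n b hb)]
  refine (congrArg (coneBd φ' n).hom (hapi_homologyMap_hMk' L n L' β b hb)).trans ?_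
  refine ((coneBd_hMk φ' n _ _ (cone_inr_cocycle φ' n _ hb')).trans ?_).trans
    (hapi_homologyMap_hMk' (coneShift φ) (n + 1) (coneShift φ') (coneShiftMap α β h)
      ((0, b) : K.X (n + 1) × L.X n) (cone_inr_cocycle φ n b hb)).symm
  apply hapi_hMk_congr
  refine (Prod.ext ?_ ?_ : ((0, (β.f n).hom b) : K'.X (n + 1) × L'.X n)
    = (((α.f (n + 1)).hom 0, (β.f n).hom b) : K'.X (n + 1) × L'.X n))
  · exact (map_zero _).symm
  · rfl

/-- Naturality of the connecting map. -/
theorem coneBd_naturality (n : ℕ) :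
    HomologicalComplex.homologyMap β n ≫ coneBd φ' n
      = coneBd φ n ≫ HomologicalComplex.homologyMap (coneShiftMap α β h) (n + 1) := by
  ext z : 2
  exact coneBd_naturality_apply α β h n z

end coneNat

/-! ### Short exact sequences of cones -/

section coneSES

variable {k : Type u} [CommRing k] {K₁ K₂ K₃ L₁ L₂ L₃ : CochainComplex (ModuleCat.{u} k) ℕ}
  {φ₁ : K₁ ⟶ L₁} {φ₂ : K₂ ⟶ L₂} {φ₃ : K₃ ⟶ L₃}

theorem coneShiftMap_comp_eq_zero (α : K₁ ⟶ K₂) (α' : K₂ ⟶ K₃) (β : L₁ ⟶ L₂) (β' : L₂ ⟶ L₃)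
    (h : φ₁ ≫ β = α ≫ φ₂) (h' : φ₂ ≫ β' = α' ≫ φ₃) (wK : α ≫ α' = 0) (wL : β ≫ β' = 0) :
    coneShiftMap α β h ≫ coneShiftMap α' β' h' = 0 := by
  rw [← coneShiftMap_comp, coneShiftMap_congr wK wL]
  exact coneShiftMap_zero φ₁ φ₃

/-- The short complex of shifted cones attached to a pair of composable commutative squares
with zero composites. -/
def coneShortComplex (α : K₁ ⟶ K₂) (α' : K₂ ⟶ K₃) (β : L₁ ⟶ L₂) (β' : L₂ ⟶ L₃)
    (h : φ₁ ≫ β = α ≫ φ₂) (h' : φ₂ ≫ β' = α' ≫ φ₃) (wK : α ≫ α' = 0) (wL : β ≫ β' = 0) :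
    ShortComplex (CochainComplex (ModuleCat.{u} k) ℕ) :=
  ShortComplex.mk (coneShiftMap α β h) (coneShiftMap α' β' h')
    (coneShiftMap_comp_eq_zero α α' β β' h h' wK wL)

theorem coneSES_degreewise (S : ShortComplex (CochainComplex (ModuleCat.{u} k) ℕ))
    (hS : S.ShortExact) (i : ℕ) :
    Function.Injective (S.f.f i).hom ∧ Function.Surjective (S.g.f i).hom ∧
      ∀ x : S.X₂.X i, (S.g.f i).hom x = 0 → ∃ y : S.X₁.X i, (S.f.f i).hom y = x := by
  have hi := (HomologicalComplex.shortExact_iff_degreewise_shortExact S).mp hS i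
  refine ⟨hi.moduleCat_injective_f, hi.moduleCat_surjective_g, ?_⟩
  intro x hx
  exact (ShortComplex.moduleCat_exact_iff _).mp hi.exact x hx

theorem coneSES_of_degreewise (S : ShortComplex (CochainComplex (ModuleCat.{u} k) ℕ))
    (hS : ∀ i : ℕ, Function.Injective (S.f.f i).hom ∧ Function.Surjective (S.g.f i).hom ∧
      ∀ x : S.X₂.X i, (S.g.f i).hom x = 0 → ∃ y : S.X₁.X i, (S.f.f i).hom y = x) :
    S.ShortExact := by
  apply HomologicalComplex.shortExact_of_degreewise_shortExact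
  intro i
  obtain ⟨h1, h2, h3⟩ := hS i
  exact
    { exact := (ShortComplex.moduleCat_exact_iff _).mpr h3
      mono_f := (ModuleCat.mono_iff_injective _).mpr h1
      epi_g := (ModuleCat.epi_iff_surjective _).mpr h2 }

/-- **A short exact sequence of squares gives a short exact sequence of shifted cones.** -/
theorem coneShortComplex_shortExact (α : K₁ ⟶ K₂) (α' : K₂ ⟶ K₃) (β : L₁ ⟶ L₂) (β' : L₂ ⟶ L₃)
    (h : φ₁ ≫ β = α ≫ φ₂) (h' : φ₂ ≫ β' = α' ≫ φ₃) (wK : α ≫ α' = 0) (wL : β ≫ β' = 0)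
    (hK : (ShortComplex.mk α α' wK).ShortExact) (hL : (ShortComplex.mk β β' wL).ShortExact) :
    (coneShortComplex α α' β β' h h' wK wL).ShortExact := by
  apply coneSES_of_degreewise
  intro i
  cases i with
  | zero =>
    obtain ⟨h1, h2, h3⟩ := coneSES_degreewise _ hK 0
    exact ⟨h1, h2, h3⟩
  | succ n =>
    obtain ⟨a1, a2, a3⟩ := coneSES_degreewise _ hK (n + 1)
    obtain ⟨b1, b2, b3⟩ := coneSES_degreewise _ hL n
    refine ⟨?_, ?_, ?_⟩
    · intro x y hxy
      have hxy' : (((α.f (n + 1)).hom x.1, (β.f n).hom x.2) : K₂.X (n + 1) × L₂.X n)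
          = (((α.f (n + 1)).hom y.1, (β.f n).hom y.2) : K₂.X (n + 1) × L₂.X n) := hxy
      exact Prod.ext (a1 (congrArg Prod.fst hxy')) (b1 (congrArg Prod.snd hxy'))
    · intro z
      obtain ⟨a, ha⟩ := a2 z.1
      obtain ⟨b, hb⟩ := b2 z.2
      refine ⟨((a, b) : K₂.X (n + 1) × L₂.X n), ?_⟩
      exact (Prod.ext ha hb : (((α'.f (n + 1)).hom a, (β'.f n).hom b) : K₃.X (n + 1) × L₃.X n)
        = z)
    · intro x hx
      have hx' : (((α'.f (n + 1)).hom x.1, (β'.f n).hom x.2) : K₃.X (n + 1) × L₃.X n) = 0 := hx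
      obtain ⟨a, ha⟩ := a3 x.1 (congrArg Prod.fst hx')
      obtain ⟨b, hb⟩ := b3 x.2 (congrArg Prod.snd hx')
      refine ⟨((a, b) : K₁.X (n + 1) × L₁.X n), ?_⟩
      exact (Prod.ext ha hb : (((α.f (n + 1)).hom a, (β.f n).hom b) : K₂.X (n + 1) × L₂.X n)
        = x)

/-- The same for a morphism of short complexes of complexes `Φ : S ⟶ T`: the cones of
`Φ.τ₁`, `Φ.τ₂`, `Φ.τ₃` form a short exact sequence when `S` and `T` are short exact. -/
theorem coneShortComplex_shortExact_of_hom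
    {S T : ShortComplex (CochainComplex (ModuleCat.{u} k) ℕ)} (Φ : S ⟶ T)
    (hS : S.ShortExact) (hT : T.ShortExact) :
    (coneShortComplex (φ₁ := Φ.τ₁) (φ₂ := Φ.τ₂) (φ₃ := Φ.τ₃) S.f S.g T.f T.g
      Φ.comm₁₂ Φ.comm₂₃ S.zero T.zero).ShortExact :=
  coneShortComplex_shortExact S.f S.g T.f T.g Φ.comm₁₂ Φ.comm₂₃ S.zero T.zero hS hT

end coneSES

end

end Fermat.Agent.H34
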